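/-
Programme S12, brick 751 VELU-AN (helper91): **analytic Vélu formulas** for lattices
`L ⊂ L' = L + ℤ t₀` (`IsCyclicSup L L' p t₀` of `MAZ/EF86`, `p = 2m + 1` an odd prime):

* `dwp_sup_sub`, `dwp_sup` : `℘'[L'] z = Σ_{k<p} ℘'[L](z ∓ k t₀)`;
* `wp_sup` : `℘[L'] z = Σ_{k<p} (℘[L](z + k t₀) - ℘[L](k t₀))`, and the forms
  `wp_velu`, `dwp_velu` with the term `k = 0` split off (Vélu's `X`, `Y` up to the factor `2`);
* `g₂_velu`, `g₃_velu` : `g₂' = g₂ + 20 t`, `g₃' = g₃ + 28 w`,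
  `t = Σ_{k=1}^m (6 x_k² - g₂/2)`, `w = Σ_{k=1}^m (y_k² + x_k (6 x_k² - g₂/2))`,
  `x_k = ℘[L](k t₀)`, `y_k = ℘'[L](k t₀)` (Vélu's coefficients for the short model
  `a₄ = -g₂/4`, `a₆ = -g₃/4`: `a₄' = a₄ - 5t`, `a₆' = a₆ - 7w`).
-/
import Fermat.Agent.MAZ.EF86.Coset
import Fermat.Agent.MAZ.Unif91.VeluG3

set_option autoImplicit false

open scoped PeriodPair
open Fermat.Agent.MAZ.EF86 Fermat.Agent.MAZ.Unif91

noncomputable section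

namespace Fermat.Agent.S12P.VeluAn91

variable {L L' : PeriodPair} {p : ℕ} {t₀ : ℂ}

/-! ### Bridge to the hypotheses of `Unif91.g₂_sup`, `Unif91.g₃_sup` -/

theorem lattice_eq_sup (h : IsCyclicSup L L' p t₀) :
    L'.lattice = L.lattice ⊔ Submodule.span ℤ {t₀} := by
  apply le_antisymm
  · intro l' hl'
    obtain ⟨k, -, hk⟩ := h.cover l' hl'
    have e : l' = (l' - (k : ℂ) * t₀) + (k : ℤ) • t₀ := by
      simp only [zsmul_eq_mul, Int.cast_natCast]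
      ring
    rw [e]
    exact Submodule.add_mem_sup hk
      (Submodule.smul_mem _ _ (Submodule.mem_span_singleton_self t₀))
  · exact sup_le h.le ((Submodule.span_singleton_le_iff_mem _ _).mpr h.mem)

theorem notMem (h : IsCyclicSup L L' p t₀) (hp : 2 ≤ p) : t₀ ∉ L.lattice := by
  have := h.order 1 one_pos (by omega)
  simpa using this

/-! ### The fibre sums for `℘'` -/

theorem hasSum_fibre_deriv (L : PeriodPair) (z c : ℂ) :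
    HasSum (fun l : L.lattice => -2 / (z - ((l : ℂ) + c)) ^ 3) (℘'[L] (z - c)) := by
  have h1 := L.hasSum_derivWeierstrassP (z - c)
  have hfun : (fun l : L.lattice => -2 / (z - ((l : ℂ) + c)) ^ 3) =
      fun l : L.lattice => -2 / (z - c - (l : ℂ)) ^ 3 := by
    funext l
    have e1 : z - c - (l : ℂ) = z - ((l : ℂ) + c) := by ring
    rw [e1]
  rw [hfun]
  exact h1

/-- **Coset decomposition of `℘'`**, `-` form. -/
theorem dwp_sup_sub (h : IsCyclicSup L L' p t₀) (z : ℂ) :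
    ℘'[L'] z = ∑ k ∈ Finset.range p, ℘'[L] (z - (k : ℂ) * t₀) := by
  have hS := L'.hasSum_derivWeierstrassP z
  rw [← h.cosetEquiv.hasSum_iff] at hS
  have hfib : ∀ k : Fin p, HasSum (fun l : L.lattice =>
      ((fun l' : L'.lattice => -2 / (z - (l' : ℂ)) ^ 3) ∘ h.cosetEquiv) (k, l))
      (℘'[L] (z - ((k : ℕ) : ℂ) * t₀)) := by
    intro k
    simpa using hasSum_fibre_deriv L z (((k : ℕ) : ℂ) * t₀)
  have htot := hS.prod_fiberwise hfib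
  have hfin := hasSum_fintype (fun k : Fin p => ℘'[L] (z - ((k : ℕ) : ℂ) * t₀))
  rw [htot.unique hfin, Fin.sum_univ_eq_sum_range (fun k : ℕ => ℘'[L] (z - (k : ℂ) * t₀)) p]

/-! ### Reflection `k ↦ p - k` -/

/-- a function of `k t₀` modulo `L`, reflected. -/
theorem sub_natCast_mul_eq (h : IsCyclicSup L L' p t₀) {k : ℕ} (hk : k ≤ p) (z : ℂ) :
    ∃ l ∈ L.lattice, z - (k : ℂ) * t₀ = z + ((p - k : ℕ) : ℂ) * t₀ + l := by
  refine ⟨-((p : ℂ) * t₀), neg_mem h.pmul, ?_⟩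
  rw [Nat.cast_sub hk]
  ring

theorem sum_Ico_reflect_eq {M : Type*} [AddCommMonoid M] (f g : ℕ → M) (p : ℕ)
    (hfg : ∀ k, 1 ≤ k → k < p → f k = g (p - k)) :
    ∑ k ∈ Finset.Ico 1 p, f k = ∑ k ∈ Finset.Ico 1 p, g k := by
  rw [Finset.sum_congr rfl fun k hk => hfg k (Finset.mem_Ico.mp hk).1 (Finset.mem_Ico.mp hk).2]
  have := Finset.sum_Ico_reflect g 1 (m := p) (n := p) (by omega)
  simpa using this

/-- **Coset decomposition of `℘'`**, `+` form. -/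
theorem dwp_sup (h : IsCyclicSup L L' p t₀) (z : ℂ) :
    ℘'[L'] z = ∑ k ∈ Finset.range p, ℘'[L] (z + (k : ℂ) * t₀) := by
  rw [dwp_sup_sub h z, Finset.range_eq_Ico, Finset.sum_eq_sum_Ico_succ_bot h.pos,
    Finset.sum_eq_sum_Ico_succ_bot h.pos]
  congr 1
  · simp
  · refine sum_Ico_reflect_eq _ _ p fun k hk1 hkp => ?_
    obtain ⟨l, hl, e⟩ := sub_natCast_mul_eq h hkp.le z
    rw [e]
    exact L.derivWeierstrassP_add_coe _ ⟨l, hl⟩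

/-- **Coset decomposition of `℘`**, `+` form. -/
theorem wp_sup (h : IsCyclicSup L L' p t₀) (z : ℂ) :
    ℘[L'] z = ∑ k ∈ Finset.range p, (℘[L] (z + (k : ℂ) * t₀) - ℘[L] ((k : ℂ) * t₀)) := by
  rw [h.weierstrassP_sup z, Finset.range_eq_Ico, Finset.sum_eq_sum_Ico_succ_bot h.pos,
    Finset.sum_eq_sum_Ico_succ_bot h.pos]
  congr 1
  · simp
  · refine sum_Ico_reflect_eq _ _ p fun k hk1 hkp => ?_
    obtain ⟨l, hl, e⟩ := sub_natCast_mul_eq h hkp.le z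
    obtain ⟨l0, hl0, e0⟩ := sub_natCast_mul_eq h hkp.le 0
    rw [e, L.weierstrassP_add_coe _ ⟨l, hl⟩]
    congr 1
    have e1 : (k : ℂ) * t₀ = -(0 - (k : ℂ) * t₀) := by ring
    rw [e1, L.weierstrassP_neg, e0, L.weierstrassP_add_coe _ ⟨l0, hl0⟩, zero_add]

/-- Vélu's abscissa: `℘[L'] z = ℘[L] z + Σ_{k=1}^{p-1} (℘[L](z + k t₀) - ℘[L](k t₀))`. -/
theorem wp_velu (h : IsCyclicSup L L' p t₀) (z : ℂ) :
    ℘[L'] z = ℘[L] z +
      ∑ k ∈ Finset.Ico 1 p, (℘[L] (z + (k : ℂ) * t₀) - ℘[L] ((k : ℂ) * t₀)) := by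
  rw [wp_sup h z, Finset.range_eq_Ico, Finset.sum_eq_sum_Ico_succ_bot h.pos]
  simp

/-- Vélu's ordinate: `℘'[L'] z = ℘'[L] z + Σ_{k=1}^{p-1} ℘'[L](z + k t₀)`. -/
theorem dwp_velu (h : IsCyclicSup L L' p t₀) (z : ℂ) :
    ℘'[L'] z = ℘'[L] z + ∑ k ∈ Finset.Ico 1 p, ℘'[L] (z + (k : ℂ) * t₀) := by
  rw [dwp_sup h z, Finset.range_eq_Ico, Finset.sum_eq_sum_Ico_succ_bot h.pos]
  simp

/-! ### The kernel values `x_k`, `y_k` and their symmetry -/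

/-- `x_k = ℘[L](k t₀)`. -/
def xk (L : PeriodPair) (t₀ : ℂ) (k : ℕ) : ℂ := ℘[L] ((k : ℂ) * t₀)

/-- `y_k = ℘'[L](k t₀)`. -/
def yk (L : PeriodPair) (t₀ : ℂ) (k : ℕ) : ℂ := ℘'[L] ((k : ℂ) * t₀)

theorem xk_reflect (h : IsCyclicSup L L' p t₀) {k : ℕ} (hk : k ≤ p) :
    xk L t₀ (p - k) = xk L t₀ k := by
  obtain ⟨l0, hl0, e0⟩ := sub_natCast_mul_eq h hk 0
  unfold xk
  have e1 : (k : ℂ) * t₀ = -(0 - (k : ℂ) * t₀) := by ring
  rw [e1, L.weierstrassP_neg, e0, L.weierstrassP_add_coe _ ⟨l0, hl0⟩, zero_add]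

theorem yk_reflect (h : IsCyclicSup L L' p t₀) {k : ℕ} (hk : k ≤ p) :
    yk L t₀ (p - k) = -yk L t₀ k := by
  obtain ⟨l0, hl0, e0⟩ := sub_natCast_mul_eq h hk 0
  unfold yk
  have e1 : (k : ℂ) * t₀ = -(0 - (k : ℂ) * t₀) := by ring
  rw [e1, L.derivWeierstrassP_neg, e0, L.derivWeierstrassP_add_coe _ ⟨l0, hl0⟩, zero_add, neg_neg]

theorem yk_sq (h : IsCyclicSup L L' p t₀) {k : ℕ} (hk0 : 0 < k) (hkp : k < p) :
    yk L t₀ k ^ 2 = 4 * xk L t₀ k ^ 3 - L.g₂ * xk L t₀ k - L.g₃ :=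
  L.derivWeierstrassP_sq _ (h.order k hk0 hkp)

/-- halving a symmetric sum over `1 ≤ k ≤ p - 1`, `p = 2m + 1`. -/
theorem sum_Ico_eq_two_mul {f : ℕ → ℂ} {m : ℕ} (hp : p = 2 * m + 1)
    (hf : ∀ k, 1 ≤ k → k < p → f (p - k) = f k) :
    ∑ k ∈ Finset.Ico 1 p, f k = 2 * ∑ k ∈ Finset.Ico 1 (m + 1), f k := by
  have hsplit := Finset.sum_Ico_consecutive f (m := 1) (n := m + 1) (k := p) (by omega) (by omega)
  have hrefl := Finset.sum_Ico_reflect f 1 (m := m + 1) (n := p) (by omega)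
  have e1 : p + 1 - (m + 1) = m + 1 := by omega
  have e2 : p + 1 - 1 = p := by omega
  rw [e1, e2] at hrefl
  rw [← hsplit, ← hrefl,
    Finset.sum_congr rfl fun k hk => hf k (Finset.mem_Ico.mp hk).1
      (by have := (Finset.mem_Ico.mp hk).2; omega)]
  ring

/-! ### Vélu's coefficients -/

variable {m : ℕ}

/-- `t = Σ_{k=1}^m (6 x_k² - g₂/2)`. -/
def veluT (L : PeriodPair) (t₀ : ℂ) (m : ℕ) : ℂ :=
  ∑ k ∈ Finset.Ico 1 (m + 1), (6 * xk L t₀ k ^ 2 - L.g₂ / 2)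

/-- `w = Σ_{k=1}^m (y_k² + x_k (6 x_k² - g₂/2))`. -/
def veluW (L : PeriodPair) (t₀ : ℂ) (m : ℕ) : ℂ :=
  ∑ k ∈ Finset.Ico 1 (m + 1), (yk L t₀ k ^ 2 + xk L t₀ k * (6 * xk L t₀ k ^ 2 - L.g₂ / 2))

/-- **`g₂' = g₂ + 20 t`.** -/
theorem g₂_velu (h : IsCyclicSup L L' p t₀) (hpp : p.Prime) (hp : p = 2 * m + 1) :
    L'.g₂ = L.g₂ + 20 * veluT L t₀ m := by
  have h2 : 2 ≤ p := hpp.two_le
  have hg := g₂_sup hpp (notMem h h2) h.pmul L' (lattice_eq_sup h)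
  have hsym : ∑ k ∈ Finset.Ico 1 p, (6 * xk L t₀ k ^ 2 - L.g₂ / 2) = 2 * veluT L t₀ m := by
    refine sum_Ico_eq_two_mul hp fun k hk1 hkp => ?_
    rw [xk_reflect h hkp.le]
  have hsum : ∑ k ∈ Finset.Ico 1 p, (6 * xk L t₀ k ^ 2 - L.g₂ / 2) =
      6 * ∑ k ∈ Finset.Ico 1 p, ℘[L] ((k : ℂ) * t₀) ^ 2 - ((p : ℂ) - 1) * (L.g₂ / 2) := by
    rw [Finset.sum_sub_distrib, ← Finset.mul_sum, Finset.sum_const, Nat.card_Ico, nsmul_eq_mul,
      Nat.cast_sub hpp.one_le]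
    simp [xk]
  rw [hg]
  linear_combination (10 : ℂ) * hsym - 10 * hsum

/-- **`g₃' = g₃ + 28 w`.** -/
theorem g₃_velu (h : IsCyclicSup L L' p t₀) (hpp : p.Prime) (hp : p = 2 * m + 1) :
    L'.g₃ = L.g₃ + 28 * veluW L t₀ m := by
  have h2 : 2 ≤ p := hpp.two_le
  have hg := g₃_sup hpp (notMem h h2) h.pmul L' (lattice_eq_sup h)
  have hsym : ∑ k ∈ Finset.Ico 1 p,
      (yk L t₀ k ^ 2 + xk L t₀ k * (6 * xk L t₀ k ^ 2 - L.g₂ / 2)) = 2 * veluW L t₀ m := by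
    refine sum_Ico_eq_two_mul hp fun k hk1 hkp => ?_
    rw [xk_reflect h hkp.le, yk_reflect h hkp.le, neg_sq]
  have hsum : ∑ k ∈ Finset.Ico 1 p,
      (yk L t₀ k ^ 2 + xk L t₀ k * (6 * xk L t₀ k ^ 2 - L.g₂ / 2)) =
      10 * ∑ k ∈ Finset.Ico 1 p, ℘[L] ((k : ℂ) * t₀) ^ 3
        - 3 / 2 * L.g₂ * ∑ k ∈ Finset.Ico 1 p, ℘[L] ((k : ℂ) * t₀) - ((p : ℂ) - 1) * L.g₃ := by
    have hterm : ∀ k ∈ Finset.Ico 1 p,
        yk L t₀ k ^ 2 + xk L t₀ k * (6 * xk L t₀ k ^ 2 - L.g₂ / 2) =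
          10 * ℘[L] ((k : ℂ) * t₀) ^ 3 - 3 / 2 * L.g₂ * ℘[L] ((k : ℂ) * t₀) - L.g₃ := by
      intro k hk
      rw [Finset.mem_Ico] at hk
      rw [yk_sq h hk.1 hk.2]
      simp only [xk]
      ring
    rw [Finset.sum_congr rfl hterm, Finset.sum_sub_distrib, Finset.sum_sub_distrib,
      ← Finset.mul_sum, ← Finset.mul_sum, Finset.sum_const, Nat.card_Ico, nsmul_eq_mul,
      Nat.cast_sub hpp.one_le]
    simp
  rw [hg]
  linear_combination (14 : ℂ) * hsym - 14 * hsum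

end Fermat.Agent.S12P.VeluAn91
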