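/-
Programme S12, brick 751 VELU-AN part (c) (helper91): the analytic Vélu data of `VeluAn91/Basic`
IS the algebraic Vélu data of `VeluDef51/Defs`, for the curve `Unif18.curve L : y² = x³ - g₂/4 x - g₃/4`
and the kernel generated by `Q = toPoint L t₀` (`h : IsCyclicSup L L' p t₀`, `p = 2m + 1` prime):

* `veluT_curve`, `veluW_curve` : `VeluDef51.veluT/veluW (curve L) Q p = VeluAn91.veluT/veluW L t₀ m`;
* `veluCurve_curve` : `VeluDef51.veluCurve (curve L) Q p = curve L'`;
* `veluX_toPoint`, `veluY_toPoint` : for `z ∉ L'`,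
  `veluX (curve L) Q p (toPoint L z) = ℘[L'] z`, `veluY … = ℘'[L'] z / 2`;
* `toPoint_sup` : `toPoint L' z = (veluX, veluY)(toPoint L z)` for `z ∉ L'`.
-/
import Fermat.Agent.MAZ.Unif18.AddHom
import Fermat.Agent.S12P.VeluDef51.Defs
import Fermat.Agent.S12P.VeluAn91.Basic

set_option autoImplicit false

open scoped PeriodPair
open Fermat.Agent.MAZ.EF86 Fermat.Agent.MAZ.Unif18 Fermat.Agent.MAZ.ModInv

noncomputable section

namespace Fermat.Agent.S12P.VeluAn91

variable {L L' : PeriodPair} {p : ℕ} {t₀ : ℂ}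

/-! ### Coordinates of `toPoint` -/

theorem nsmul_toPoint (L : PeriodPair) (k : ℕ) (z : ℂ) :
    k • toPoint L z = toPoint L ((k : ℂ) * z) := by
  have := map_nsmul (toPointHom L) k z
  simp only [toPointHom_apply, nsmul_eq_mul] at this
  exact this.symm

theorem xco_toPoint {z : ℂ} (hz : z ∉ L.lattice) : xco (curve L) (toPoint L z) = ℘[L] z := by
  rw [toPoint_of_notMem L hz]
  rfl

theorem yco_toPoint {z : ℂ} (hz : z ∉ L.lattice) :
    yco (curve L) (toPoint L z) = ℘'[L] z / 2 := by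
  rw [toPoint_of_notMem L hz]
  rfl

theorem psi2_toPoint {z : ℂ} (hz : z ∉ L.lattice) :
    psi2 (curve L) (toPoint L z) = ℘'[L] z := by
  rw [toPoint_of_notMem L hz, psi2_some]
  simp only [curve_a₁, curve_a₃]
  ring

theorem gx_toPoint {z : ℂ} (hz : z ∉ L.lattice) :
    VeluDef51.gx (curve L) (toPoint L z) = 3 * ℘[L] z ^ 2 - L.g₂ / 4 := by
  simp only [VeluDef51.gx, xco_toPoint hz, yco_toPoint hz, curve_a₁, curve_a₂, curve_a₄]
  ring

theorem curve_b₂ (L : PeriodPair) : (curve L).b₂ = 0 := by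
  simp [WeierstrassCurve.b₂]

/-! ### The coefficients -/

variable {m : ℕ}

theorem veluT_curve (h : IsCyclicSup L L' p t₀) (hp : p = 2 * m + 1) :
    VeluDef51.veluT (curve L) (toPoint L t₀) p = veluT L t₀ m := by
  unfold VeluDef51.veluT
  have hterm : ∀ k ∈ Finset.Ico 1 p,
      VeluDef51.gx (curve L) (k • toPoint L t₀) = 3 * xk L t₀ k ^ 2 - L.g₂ / 4 := by
    intro k hk
    rw [Finset.mem_Ico] at hk
    rw [nsmul_toPoint, gx_toPoint (h.order k hk.1 hk.2)]
    rfl
  rw [Finset.sum_congr rfl hterm,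
    sum_Ico_eq_two_mul (f := fun k => 3 * xk L t₀ k ^ 2 - L.g₂ / 4) hp
      (fun k _ hkp => by simp only [xk_reflect h hkp.le]),
    veluT, Finset.mul_sum]
  refine Finset.sum_congr rfl fun k _ => ?_
  ring

theorem veluW_curve (h : IsCyclicSup L L' p t₀) (hp : p = 2 * m + 1) :
    VeluDef51.veluW (curve L) (toPoint L t₀) p = veluW L t₀ m := by
  unfold VeluDef51.veluW
  have hterm : ∀ k ∈ Finset.Ico 1 p,
      xco (curve L) (k • toPoint L t₀) * VeluDef51.gx (curve L) (k • toPoint L t₀) +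
        yco (curve L) (k • toPoint L t₀) * psi2 (curve L) (k • toPoint L t₀) =
      (yk L t₀ k ^ 2 + xk L t₀ k * (6 * xk L t₀ k ^ 2 - L.g₂ / 2)) / 2 := by
    intro k hk
    rw [Finset.mem_Ico] at hk
    have hk' := h.order k hk.1 hk.2
    rw [nsmul_toPoint, gx_toPoint hk', xco_toPoint hk', yco_toPoint hk', psi2_toPoint hk']
    simp only [xk, yk]
    ring
  rw [Finset.sum_congr rfl hterm,
    sum_Ico_eq_two_mul
      (f := fun k => (yk L t₀ k ^ 2 + xk L t₀ k * (6 * xk L t₀ k ^ 2 - L.g₂ / 2)) / 2) hp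
      (fun k _ hkp => by simp only [xk_reflect h hkp.le, yk_reflect h hkp.le, neg_sq]),
    veluW, Finset.mul_sum]
  refine Finset.sum_congr rfl fun k _ => ?_
  ring

/-- **The quotient curve**: Vélu's curve of `(curve L, ⟨toPoint L t₀⟩)` is `curve L'`. -/
theorem veluCurve_curve (h : IsCyclicSup L L' p t₀) (hpp : p.Prime) (hp : p = 2 * m + 1) :
    VeluDef51.veluCurve (curve L) (toPoint L t₀) p = curve L' := by
  refine WeierstrassCurve.ext rfl rfl rfl ?_ ?_
  · rw [VeluDef51.veluCurve_a₄, veluT_curve h hp, curve_a₄, curve_a₄, g₂_velu h hpp hp]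
    ring
  · rw [VeluDef51.veluCurve_a₆, veluT_curve h hp, veluW_curve h hp, curve_b₂, curve_a₆, curve_a₆,
      g₃_velu h hpp hp]
    ring

/-! ### The isogeny in coordinates -/

theorem add_natCast_mul_notMem (h : IsCyclicSup L L' p t₀) {z : ℂ} (hz : z ∉ L'.lattice) (k : ℕ) :
    z + (k : ℂ) * t₀ ∉ L.lattice := by
  intro hmem
  apply hz
  have h1 : z + (k : ℂ) * t₀ ∈ L'.lattice := h.le hmem
  have h2 : z = z + (k : ℂ) * t₀ - (k : ℂ) * t₀ := by ring
  rw [h2]
  exact sub_mem h1 (h.natCast_mul_mem k)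

theorem notMem_of_notMem_sup (h : IsCyclicSup L L' p t₀) {z : ℂ} (hz : z ∉ L'.lattice) :
    z ∉ L.lattice := fun hmem => hz (h.le hmem)

theorem toPoint_add_nsmul (L : PeriodPair) (z t₀ : ℂ) (k : ℕ) :
    toPoint L z + k • toPoint L t₀ = toPoint L (z + (k : ℂ) * t₀) := by
  rw [nsmul_toPoint, toPoint_add]

theorem sum_yk_eq_zero (h : IsCyclicSup L L' p t₀) : ∑ k ∈ Finset.Ico 1 p, yk L t₀ k = 0 := by
  have h1 : ∑ k ∈ Finset.Ico 1 p, yk L t₀ k = ∑ k ∈ Finset.Ico 1 p, -yk L t₀ k :=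
    sum_Ico_reflect_eq _ _ p fun k _ hkp => by rw [yk_reflect h hkp.le, neg_neg]
  rw [Finset.sum_neg_distrib] at h1
  exact self_eq_neg.mp h1

theorem veluX_toPoint (h : IsCyclicSup L L' p t₀) {z : ℂ} (hz : z ∉ L'.lattice) :
    VeluDef51.veluX (curve L) (toPoint L t₀) p (toPoint L z) = ℘[L'] z := by
  unfold VeluDef51.veluX
  rw [wp_velu h z, xco_toPoint (notMem_of_notMem_sup h hz)]
  congr 1
  refine Finset.sum_congr rfl fun k hk => ?_
  rw [Finset.mem_Ico] at hk
  rw [toPoint_add_nsmul, xco_toPoint (add_natCast_mul_notMem h hz k), nsmul_toPoint,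
    xco_toPoint (h.order k hk.1 hk.2)]

theorem veluY_toPoint (h : IsCyclicSup L L' p t₀) {z : ℂ} (hz : z ∉ L'.lattice) :
    VeluDef51.veluY (curve L) (toPoint L t₀) p (toPoint L z) = ℘'[L'] z / 2 := by
  unfold VeluDef51.veluY
  have hterm : ∀ k ∈ Finset.Ico 1 p,
      yco (curve L) (toPoint L z + k • toPoint L t₀) - yco (curve L) (k • toPoint L t₀) =
        ℘'[L] (z + (k : ℂ) * t₀) / 2 - yk L t₀ k / 2 := by
    intro k hk
    rw [Finset.mem_Ico] at hk
    rw [toPoint_add_nsmul, yco_toPoint (add_natCast_mul_notMem h hz k), nsmul_toPoint,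
      yco_toPoint (h.order k hk.1 hk.2)]
    rfl
  rw [Finset.sum_congr rfl hterm, Finset.sum_sub_distrib, ← Finset.sum_div, ← Finset.sum_div,
    sum_yk_eq_zero h, dwp_velu h z, yco_toPoint (notMem_of_notMem_sup h hz)]
  ring

/-- **Vélu's isogeny is `z ↦ z`**: for `z ∉ L'`, `toPoint L' z` has coordinates
`(veluX, veluY)` of `toPoint L z`. -/
theorem toPoint_sup (h : IsCyclicSup L L' p t₀) {z : ℂ} (hz : z ∉ L'.lattice) :
    ∃ hns : (curve L').toAffine.Nonsingular
        (VeluDef51.veluX (curve L) (toPoint L t₀) p (toPoint L z))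
        (VeluDef51.veluY (curve L) (toPoint L t₀) p (toPoint L z)),
      toPoint L' z = WeierstrassCurve.Affine.Point.some _ _ hns := by
  have hns := curve_nonsingular_wp L' hz
  rw [← veluX_toPoint h hz, ← veluY_toPoint h hz] at hns
  refine ⟨hns, ?_⟩
  rw [toPoint_of_notMem L' hz]
  exact some_congr (veluX_toPoint h hz).symm (veluY_toPoint h hz).symm _ _

theorem xco_toPoint_sup (h : IsCyclicSup L L' p t₀) {z : ℂ} (hz : z ∉ L'.lattice) :
    xco (curve L') (toPoint L' z) = VeluDef51.veluX (curve L) (toPoint L t₀) p (toPoint L z) := by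
  rw [xco_toPoint hz, veluX_toPoint h hz]

theorem yco_toPoint_sup (h : IsCyclicSup L L' p t₀) {z : ℂ} (hz : z ∉ L'.lattice) :
    yco (curve L') (toPoint L' z) = VeluDef51.veluY (curve L) (toPoint L t₀) p (toPoint L z) := by
  rw [yco_toPoint hz, veluY_toPoint h hz]

end Fermat.Agent.S12P.VeluAn91
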