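/-
Programme S12, brick VELU-C part 2 'points' (helper91).  Setting of `VeluC51/Curve`:
`h : curve L = C • W` (uniformisation of `W` over `ℂ`), `hcyc : IsCyclicSup L L' p t₀`,
`Q = pointEquiv h (toPoint L t₀)`, so that `h' : curve L' = C • veluCurve W Q p`
(`VeluC51.curve_sup_eq`).  Then **Vélu's isogeny is `z ↦ z`**: for `z ∉ L'`,

* `xco_velu` (P1) : `xco (veluCurve W Q p) (pointEquiv h' (toPoint L' z)) = veluX W Q p R`,
* `yco_velu` (P2) : `yco (veluCurve W Q p) (pointEquiv h' (toPoint L' z)) = veluY W Q p R`,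
  `R = pointEquiv h (toPoint L z)`;
* `pointEquiv_toPoint_sup` : `pointEquiv h' (toPoint L' z) = (veluX W Q p R, veluY W Q p R)`;
* `exists_nonsingular_velu` (P3) : for `R ∉ ⟨Q⟩` the pair `(veluX W Q p R, veluY W Q p R)` is a
  nonsingular point of `veluCurve W Q p`, of exact order `p` if `p • R = 0`.
-/
import Fermat.Agent.S12P.VeluC51.Curve
import Fermat.Agent.S12P.VeluAn91.Match

set_option autoImplicit false

open scoped PeriodPair

noncomputable section

namespace Fermat.Agent.S12P.VeluAn91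

open PeriodPair WeierstrassCurve
open Fermat.Agent.MAZ Fermat.Agent.MAZ.Unif18 Fermat.Agent.MAZ.EF86
open Fermat.Agent.S05.Transport
open Fermat.Agent.MAZ.ModInv (xco yco xco_some yco_some)

/-- An affine point `≠ 0` is `(xco, yco)`. -/
theorem exists_some_of_ne_zero {F : Type*} [Field F] (V : WeierstrassCurve F)
    (P : V.toAffine.Point) (hP : P ≠ 0) {x y : F} (hx : xco V P = x) (hy : yco V P = y) :
    ∃ hns : V.toAffine.Nonsingular x y, P = Affine.Point.some x y hns := by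
  subst hx hy
  cases P with
  | zero => exact absurd rfl hP
  | some x y h => exact ⟨h, rfl⟩

section

variable {W : WeierstrassCurve ℂ} {C : VariableChange ℂ} {L L' : PeriodPair}
  (h : curve L = C • W) {p : ℕ} {t₀ : ℂ} (hcyc : IsCyclicSup L L' p t₀)

/-- `R + k • Q` in analytic terms. -/
theorem add_nsmul_pointEquiv_toPoint (z t₀ : ℂ) (k : ℕ) :
    pointEquiv h (toPoint L z) + k • pointEquiv h (toPoint L t₀) =
      pointEquiv h (toPoint L (z + (k : ℂ) * t₀)) := by
  rw [nsmul_eq_pointEquiv_toPoint, ← map_add, ← toPoint_add]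

include hcyc in
/-- **(P1)** the abscissa of the image of `z` on the Vélu curve is Vélu's `X`. -/
theorem xco_velu (h' : curve L' = C • VeluDef51.veluCurve W (pointEquiv h (toPoint L t₀)) p)
    {z : ℂ} (hz : z ∉ L'.lattice) :
    xco (VeluDef51.veluCurve W (pointEquiv h (toPoint L t₀)) p) (pointEquiv h' (toPoint L' z)) =
      VeluDef51.veluX W (pointEquiv h (toPoint L t₀)) p (pointEquiv h (toPoint L z)) := by
  rw [VeluC51.xco_pointEquiv_toPoint h' hz, VeluDef51.veluX,
    VeluC51.xco_pointEquiv_toPoint h (notMem_of_notMem_sup hcyc hz), wp_velu hcyc z]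
  have hterm : ∀ k ∈ Finset.Ico 1 p,
      xco W (pointEquiv h (toPoint L z) + k • pointEquiv h (toPoint L t₀)) -
          xco W (k • pointEquiv h (toPoint L t₀)) =
        (C.u : ℂ) ^ 2 * (℘[L] (z + (k : ℂ) * t₀) - ℘[L] ((k : ℂ) * t₀)) := by
    intro k hk
    rw [add_nsmul_pointEquiv_toPoint, nsmul_eq_pointEquiv_toPoint,
      VeluC51.xco_pointEquiv_toPoint h (add_natCast_mul_notMem hcyc hz k),
      VeluC51.xco_pointEquiv_toPoint h (VeluC51.mul_notMem hcyc hk)]
    ring
  rw [Finset.sum_congr rfl hterm, ← Finset.mul_sum]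
  ring

include hcyc in
/-- **(P2)** the ordinate of the image of `z` on the Vélu curve is Vélu's `Y`. -/
theorem yco_velu (h' : curve L' = C • VeluDef51.veluCurve W (pointEquiv h (toPoint L t₀)) p)
    {z : ℂ} (hz : z ∉ L'.lattice) :
    yco (VeluDef51.veluCurve W (pointEquiv h (toPoint L t₀)) p) (pointEquiv h' (toPoint L' z)) =
      VeluDef51.veluY W (pointEquiv h (toPoint L t₀)) p (pointEquiv h (toPoint L z)) := by
  rw [VeluC51.yco_pointEquiv_toPoint h' hz, VeluDef51.veluY,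
    VeluC51.yco_pointEquiv_toPoint h (notMem_of_notMem_sup hcyc hz), wp_velu hcyc z,
    dwp_velu hcyc z]
  have hterm : ∀ k ∈ Finset.Ico 1 p,
      yco W (pointEquiv h (toPoint L z) + k • pointEquiv h (toPoint L t₀)) -
          yco W (k • pointEquiv h (toPoint L t₀)) =
        (C.u : ℂ) ^ 3 / 2 * ℘'[L] (z + (k : ℂ) * t₀) - (C.u : ℂ) ^ 3 / 2 * ℘'[L] ((k : ℂ) * t₀) +
          (C.u : ℂ) ^ 2 * C.s * (℘[L] (z + (k : ℂ) * t₀) - ℘[L] ((k : ℂ) * t₀)) := by
    intro k hk
    rw [add_nsmul_pointEquiv_toPoint, nsmul_eq_pointEquiv_toPoint,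
      VeluC51.yco_pointEquiv_toPoint h (add_natCast_mul_notMem hcyc hz k),
      VeluC51.yco_pointEquiv_toPoint h (VeluC51.mul_notMem hcyc hk)]
    ring
  have hsum : ∑ k ∈ Finset.Ico 1 p,
      (yco W (pointEquiv h (toPoint L z) + k • pointEquiv h (toPoint L t₀)) -
          yco W (k • pointEquiv h (toPoint L t₀))) =
      (C.u : ℂ) ^ 3 / 2 * ∑ k ∈ Finset.Ico 1 p, ℘'[L] (z + (k : ℂ) * t₀) +
        (C.u : ℂ) ^ 2 * C.s *
          ∑ k ∈ Finset.Ico 1 p, (℘[L] (z + (k : ℂ) * t₀) - ℘[L] ((k : ℂ) * t₀)) := by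
    rw [Finset.sum_congr rfl hterm, Finset.sum_add_distrib, Finset.sum_sub_distrib,
      ← Finset.mul_sum, ← Finset.mul_sum, ← Finset.mul_sum, VeluC51.sum_dwp_eq_zero hcyc]
    ring
  rw [hsum]
  ring

include hcyc in
/-- **Vélu's isogeny is `z ↦ z`.** -/
theorem pointEquiv_toPoint_sup
    (h' : curve L' = C • VeluDef51.veluCurve W (pointEquiv h (toPoint L t₀)) p)
    {z : ℂ} (hz : z ∉ L'.lattice) :
    ∃ hns : (VeluDef51.veluCurve W (pointEquiv h (toPoint L t₀)) p).toAffine.Nonsingular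
        (VeluDef51.veluX W (pointEquiv h (toPoint L t₀)) p (pointEquiv h (toPoint L z)))
        (VeluDef51.veluY W (pointEquiv h (toPoint L t₀)) p (pointEquiv h (toPoint L z))),
      pointEquiv h' (toPoint L' z) = Affine.Point.some _ _ hns :=
  exists_some_of_ne_zero _ _ (VeluC51.pointEquiv_toPoint_ne_zero h' hz)
    (xco_velu h hcyc h' hz) (yco_velu h hcyc h' hz)

include hcyc in
/-- a point of `W` outside the kernel `⟨Q⟩` comes from some `z ∉ L'`. -/
theorem exists_notMem_sup_of_notMem_zmultiples (R : W.toAffine.Point)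
    (hR : R ∉ AddSubgroup.zmultiples (pointEquiv h (toPoint L t₀))) :
    ∃ z : ℂ, z ∉ L'.lattice ∧ pointEquiv h (toPoint L z) = R := by
  obtain ⟨P0, rfl⟩ := (pointEquiv h).surjective R
  obtain ⟨z, rfl⟩ := toPoint_surjective L P0
  refine ⟨z, fun hz => hR ?_, rfl⟩
  obtain ⟨k, -, hk⟩ := hcyc.cover z hz
  refine AddSubgroup.mem_zmultiples_iff.mpr ⟨(k : ℤ), ?_⟩
  rw [natCast_zsmul, nsmul_eq_pointEquiv_toPoint]
  have e : toPoint L z = toPoint L ((k : ℂ) * t₀) := by
    have := toPoint_add_mem L ((k : ℂ) * t₀) hk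
    rwa [add_sub_cancel] at this
  rw [e]

include hcyc in
/-- **(P3)** outside the kernel, `(veluX, veluY)` is a nonsingular point of the Vélu curve; it has
exact order `p` if `p • R = 0`. -/
theorem exists_nonsingular_velu (hp : p.Prime) (R : W.toAffine.Point)
    (hR : R ∉ AddSubgroup.zmultiples (pointEquiv h (toPoint L t₀))) :
    ∃ hns : (VeluDef51.veluCurve W (pointEquiv h (toPoint L t₀)) p).toAffine.Nonsingular
        (VeluDef51.veluX W (pointEquiv h (toPoint L t₀)) p R)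
        (VeluDef51.veluY W (pointEquiv h (toPoint L t₀)) p R),
      (p • R = 0 → addOrderOf (Affine.Point.some _ _ hns) = p) := by
  have h' := VeluC51.curve_sup_eq h hcyc hp (VeluC51.lattice_eq_sup hcyc)
  obtain ⟨z, hz, rfl⟩ := exists_notMem_sup_of_notMem_zmultiples h hcyc R hR
  obtain ⟨hns, hPeq⟩ := pointEquiv_toPoint_sup h hcyc h' hz
  refine ⟨hns, fun hpR => ?_⟩
  rw [← hPeq]
  have : Fact p.Prime := ⟨hp⟩
  refine addOrderOf_eq_prime ?_ (VeluC51.pointEquiv_toPoint_ne_zero h' hz)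
  rw [nsmul_eq_pointEquiv_toPoint] at hpR ⊢
  have h0 : toPoint L ((p : ℂ) * z) = 0 := (pointEquiv h).map_eq_zero_iff.mp hpR
  have hmem : (p : ℂ) * z ∈ L'.lattice := hcyc.le ((toPoint_eq_zero_iff L).mp h0)
  rw [toPoint_of_mem L' hmem, map_zero]

end

end Fermat.Agent.S12P.VeluAn91
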